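import Fermat.Agent.S42.Cyclo
import Fermat.Prelude.Def_GaloisRep_ComplexConjugation

/-!
# S30 glue: the `p`-adic cyclotomic character of `G_ℚ` and complex conjugation

* `padicCyclo p : GQ →* ℤ_[p]ˣ` — the `p`-adic cyclotomic character;
* `padicCyclo_frob` : `χ(τ) = ℓ` for a Frobenius `τ` at a valuation subring over `ℓ ≠ p`;
* `padicCyclo_inertia` : `χ(σ) = 1` for `σ` in an inertia group over `q ≠ p`;
* `exists_complexConj` : there is `c` with `c * c = 1`, `χ(c) = -1`;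
* `padicToComplete` : the ring hom `ℤ_[p] →+* S` for an `I`-adically complete ring `S` with `p ∈ I`;
* `exists_cycloCharO` : the packaged statement for a complete local ring `𝒪'`.
-/

set_option autoImplicit false

noncomputable section

namespace Fermat.Agent.S30

open Fermat.Agent.ES Fermat.Agent.S42

/-! ### the `p`-adic cyclotomic character -/

/-- the `p`-adic cyclotomic character of `G_ℚ` -/
def padicCyclo (p : ℕ) [Fact p.Prime] : GQ →* ℤ_[p]ˣ :=
  (cyclotomicCharacter (AlgebraicClosure ℚ) p).comp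
    (MulSemiringAction.toRingAut GQ (AlgebraicClosure ℚ))

theorem padicCyclo_spec (p : ℕ) [Fact p.Prime] (σ : GQ) (n : ℕ) {ζ : AlgebraicClosure ℚ}
    (hζ : ζ ^ p ^ n = 1) :
    σ ζ = ζ ^ (((padicCyclo p σ : ℤ_[p]ˣ) : ℤ_[p]).toZModPow n).val := by
  have h := cyclotomicCharacter.spec (L := AlgebraicClosure ℚ) p
    (MulSemiringAction.toRingAut GQ (AlgebraicClosure ℚ) σ) ζ hζ
  simpa [padicCyclo] using h

/-- if `σ ζ = ζ ^ k` for a primitive `p ^ n`-th root of unity, then `χ(σ) ≡ k mod p ^ n`. -/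
theorem padicCyclo_toZModPow (p : ℕ) [Fact p.Prime] (σ : GQ) (n k : ℕ) {ζ : AlgebraicClosure ℚ}
    (hζ : IsPrimitiveRoot ζ (p ^ n)) (h : σ ζ = ζ ^ k) :
    ((padicCyclo p σ : ℤ_[p]ˣ) : ℤ_[p]).toZModPow n = (k : ZMod (p ^ n)) := by
  have h1 := padicCyclo_spec p σ n hζ.pow_eq_one
  rw [h] at h1
  have hζ0 : ζ ≠ 0 := hζ.ne_zero (pow_ne_zero _ (Fact.out : p.Prime).ne_zero)
  have h2 : (Units.mk0 ζ hζ0) ^ k
      = (Units.mk0 ζ hζ0) ^ (((padicCyclo p σ : ℤ_[p]ˣ) : ℤ_[p]).toZModPow n).val :=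
    Units.ext (by simpa using h1)
  have hord : orderOf (Units.mk0 ζ hζ0) = p ^ n := by
    rw [← orderOf_units]
    exact hζ.eq_orderOf.symm
  have hmod := (pow_eq_pow_iff_modEq).mp h2
  rw [hord] at hmod
  have h3 := (ZMod.natCast_eq_natCast_iff _ _ _).mpr hmod
  rw [h3, ZMod.natCast_zmod_val]

/-- `χ(σ) - k ∈ (p ^ n)` where `σ ζ = ζ ^ k` on `p ^ n`-th roots of unity. -/
theorem padicCyclo_sub_mem (p : ℕ) [Fact p.Prime] (σ : GQ) (n : ℕ) :
    ((padicCyclo p σ : ℤ_[p]ˣ) : ℤ_[p])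
        - (((((padicCyclo p σ : ℤ_[p]ˣ) : ℤ_[p]).toZModPow n).val : ℕ) : ℤ_[p])
      ∈ Ideal.span {(p : ℤ_[p]) ^ n} := by
  rw [← PadicInt.ker_toZModPow, RingHom.mem_ker, map_sub, map_natCast, ZMod.natCast_zmod_val,
    sub_self]

/-! ### reduction of `p`-power roots of unity at a prime `ℓ ≠ p` -/

/-- a `p`-power root of unity in a valuation subring over `ℓ ≠ p` with residue `1` is `1`. -/
theorem residue_eq_one_imp (A : ValuationSubring (AlgebraicClosure ℚ)) {p ℓ : ℕ}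
    (hp : p.Prime) (hℓ : ℓ.Prime) (hℓp : ℓ ≠ p) (hA : A.LiesOverPrime ℓ) :
    ∀ (n : ℕ) (z : A), z ^ p ^ n = 1 → IsLocalRing.residue A z = 1 → z = 1 := by
  intro n
  induction n with
  | zero => intro z hz _; simpa using hz
  | succ n ih =>
    intro z hz hres
    have hzp : z ^ p = 1 := by
      apply ih (z ^ p)
      · rw [← pow_mul, ← pow_succ']; exact hz
      · rw [map_pow, hres, one_pow]
    by_contra hz1
    have : Fact p.Prime := ⟨hp⟩
    have hprim : IsPrimitiveRoot z p := by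
      have hz0 : z ≠ 0 := by
        rintro rfl
        rw [zero_pow hp.ne_zero] at hzp
        exact zero_ne_one hzp
      rw [IsPrimitiveRoot.iff_orderOf]
      exact orderOf_eq_prime hzp hz1
    have hsum : ∑ i ∈ Finset.range p, z ^ i = 0 := hprim.geom_sum_eq_zero hp.one_lt
    have := congrArg (IsLocalRing.residue A) hsum
    rw [map_sum, map_zero] at this
    simp only [map_pow, hres, one_pow, Finset.sum_const, Finset.card_range,
      nsmul_eq_mul, mul_one] at this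
    have h2 : IsLocalRing.residue A (p : A) = 0 := by simpa using this
    exact cyclo_residue_natCast_ne_zero A hp hℓ hℓp hA h2

/-- the reduction map is injective on `p`-power roots of unity. -/
theorem residue_injOn_roots (A : ValuationSubring (AlgebraicClosure ℚ)) {p ℓ : ℕ}
    (hp : p.Prime) (hℓ : ℓ.Prime) (hℓp : ℓ ≠ p) (hA : A.LiesOverPrime ℓ)
    (n : ℕ) (z w : A) (hz : z ^ p ^ n = 1) (hw : w ^ p ^ n = 1)
    (h : IsLocalRing.residue A z = IsLocalRing.residue A w) : z = w := by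
  have hpos : 0 < p ^ n := pow_pos hp.pos n
  have hw' : w * w ^ (p ^ n - 1) = 1 := by
    rw [← pow_succ', Nat.sub_add_cancel hpos, hw]
  have h1 : z * w ^ (p ^ n - 1) = 1 := by
    apply residue_eq_one_imp A hp hℓ hℓp hA n
    · rw [mul_pow, hz, one_mul, ← pow_mul, mul_comm, pow_mul, hw, one_pow]
    · rw [map_mul, h, ← map_mul, hw', map_one]
  calc z = z * (w * w ^ (p ^ n - 1)) := by rw [hw', mul_one]
    _ = w * (z * w ^ (p ^ n - 1)) := by ring
    _ = w := by rw [h1, mul_one]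

/-- `χ(τ) = ℓ` for a Frobenius `τ` at a valuation subring over `ℓ ≠ p`. -/
theorem padicCyclo_frob (p : ℕ) [Fact p.Prime] (ℓ : ℕ) (hℓ : ℓ.Prime) (hℓp : ℓ ≠ p)
    (A : ValuationSubring (AlgebraicClosure ℚ)) (hA : A.LiesOverPrime ℓ) (τ : GQ)
    (hτ : A.IsFrobeniusAt τ ℓ) :
    ((padicCyclo p τ : ℤ_[p]ˣ) : ℤ_[p]) = (ℓ : ℤ_[p]) := by
  have hp : p.Prime := Fact.out
  apply PadicInt.ext_of_toZModPow.mp
  intro n
  rw [map_natCast]
  have : NeZero ((p ^ n : ℕ) : AlgebraicClosure ℚ) :=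
    ⟨Nat.cast_ne_zero.mpr (pow_ne_zero _ hp.ne_zero)⟩
  obtain ⟨ζ, hζ⟩ := HasEnoughRootsOfUnity.exists_primitiveRoot (AlgebraicClosure ℚ) (p ^ n)
  apply padicCyclo_toZModPow p τ n ℓ hζ
  have hζA : ζ ∈ A := cyclo_mem_valuationSubring A (pow_pos hp.pos n) hζ.pow_eq_one
  set z : A := ⟨ζ, hζA⟩ with hz
  have hmem := hτ.mem_decompositionSubgroup
  have hzpow : z ^ p ^ n = 1 := Subtype.ext (by simpa [hz] using hζ.pow_eq_one)
  have e2 := hτ.smul_residue_eq (IsLocalRing.residue A z)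
  rw [← IsLocalRing.ResidueField.residue_smul, ← map_pow] at e2
  have e3 : ((⟨τ, hmem⟩ : A.decompositionSubgroup ℚ) • z : A) = z ^ ℓ := by
    apply residue_injOn_roots A hp hℓ hℓp hA n _ _ _ _ e2
    · rw [← smul_pow', hzpow, smul_one]
    · rw [← pow_mul, mul_comm, pow_mul, hzpow, one_pow]
  have e4 : τ ζ = ((z ^ ℓ : A) : AlgebraicClosure ℚ) := congrArg Subtype.val e3
  simpa [hz] using e4

/-- `χ(σ) = 1` for `σ` in the inertia group of a valuation subring over `q ≠ p`. -/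
theorem padicCyclo_inertia (p : ℕ) [Fact p.Prime] (q : ℕ) (hq : q.Prime) (hqp : q ≠ p)
    (A : ValuationSubring (AlgebraicClosure ℚ)) (hA : A.LiesOverPrime q) (σ : GQ)
    (hσ : σ ∈ A.inertiaSubgroupIn ℚ) :
    padicCyclo p σ = 1 := by
  have hp : p.Prime := Fact.out
  apply Units.ext
  apply PadicInt.ext_of_toZModPow.mp
  intro n
  rw [Units.val_one, map_one]
  have : NeZero ((p ^ n : ℕ) : AlgebraicClosure ℚ) :=
    ⟨Nat.cast_ne_zero.mpr (pow_ne_zero _ hp.ne_zero)⟩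
  obtain ⟨ζ, hζ⟩ := HasEnoughRootsOfUnity.exists_primitiveRoot (AlgebraicClosure ℚ) (p ^ n)
  have key : σ ζ = ζ ^ 1 := by
    rw [pow_one]
    have hζA : ζ ∈ A := cyclo_mem_valuationSubring A (pow_pos hp.pos n) hζ.pow_eq_one
    set z : A := ⟨ζ, hζA⟩ with hz
    obtain ⟨σ', hσ', rfl⟩ := hσ
    have hzpow : z ^ p ^ n = 1 := Subtype.ext (by simpa [hz] using hζ.pow_eq_one)
    have e2 : σ' • IsLocalRing.residue A z = IsLocalRing.residue A z := by
      have := congrArg (fun f : RingAut (IsLocalRing.ResidueField A) =>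
        f (IsLocalRing.residue A z)) (MonoidHom.mem_ker.mp hσ')
      simpa using this
    rw [← IsLocalRing.ResidueField.residue_smul] at e2
    have e3 : (σ' • z : A) = z := by
      apply residue_injOn_roots A hp hq hqp hA n _ _ _ hzpow e2
      rw [← smul_pow', hzpow, smul_one]
    exact congrArg Subtype.val e3
  have := padicCyclo_toZModPow p σ n 1 hζ key
  simpa using this

/-- `χ(σ) ≡ 1 mod p ^ n` if `σ` fixes a primitive `p ^ n`-th root of unity. -/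
theorem padicCyclo_sub_one_mem (p : ℕ) [Fact p.Prime] (σ : GQ) (n : ℕ) {ζ : AlgebraicClosure ℚ}
    (hζ : IsPrimitiveRoot ζ (p ^ n)) (h : σ ζ = ζ) :
    ((padicCyclo p σ : ℤ_[p]ˣ) : ℤ_[p]) - 1 ∈ Ideal.span {(p : ℤ_[p]) ^ n} := by
  have key : σ ζ = ζ ^ 1 := by rw [pow_one, h]
  have h1 := padicCyclo_toZModPow p σ n 1 hζ key
  rw [← PadicInt.ker_toZModPow, RingHom.mem_ker, map_sub, map_one, h1]
  simp

/-! ### complex conjugation -/

/-- the prelude's complex conjugation inverts all roots of unity. -/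
theorem complexConj_root (n : ℕ) (ζ : AlgebraicClosure ℚ) (hn : n ≠ 0) (hζ : ζ ^ n = 1) :
    complexConjugation ζ = ζ⁻¹ := by
  have hinj : Function.Injective complexEmbedding := complexEmbedding.toRingHom.injective
  apply hinj
  rw [complexEmbedding_complexConjugation, map_inv₀]
  have h1 : (complexEmbedding ζ) ^ n = 1 := by rw [← map_pow, hζ, map_one]
  exact (Complex.inv_eq_conj (Complex.norm_eq_one_of_pow_eq_one h1 hn)).symm

/-- `χ(c) = -1` for any `c` inverting the `p`-power roots of unity. -/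
theorem padicCyclo_conj (p : ℕ) [Fact p.Prime] (c : GQ)
    (hc : ∀ (n : ℕ) (ζ : AlgebraicClosure ℚ), n ≠ 0 → ζ ^ n = 1 → c ζ = ζ⁻¹) :
    ((padicCyclo p c : ℤ_[p]ˣ) : ℤ_[p]) = -1 := by
  have hp : p.Prime := Fact.out
  apply PadicInt.ext_of_toZModPow.mp
  intro n
  have hpn : p ^ n ≠ 0 := pow_ne_zero _ hp.ne_zero
  have : NeZero ((p ^ n : ℕ) : AlgebraicClosure ℚ) := ⟨Nat.cast_ne_zero.mpr hpn⟩
  obtain ⟨ζ, hζ⟩ := HasEnoughRootsOfUnity.exists_primitiveRoot (AlgebraicClosure ℚ) (p ^ n)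
  have key : c ζ = ζ ^ (p ^ n - 1) := by
    rw [hc (p ^ n) ζ hpn hζ.pow_eq_one]
    apply inv_eq_of_mul_eq_one_right
    rw [← pow_succ', Nat.sub_add_cancel (Nat.pos_of_ne_zero hpn), hζ.pow_eq_one]
  rw [padicCyclo_toZModPow p c n _ hζ key, map_neg, map_one,
    Nat.cast_sub (Nat.pos_of_ne_zero hpn)]
  simp

/-! ### the ring homomorphism `ℤ_[p] →+* S` into a complete ring -/

section complete

variable (p : ℕ) [Fact p.Prime] {S : Type*} [CommRing S] (I : Ideal S)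

/-- `ZMod (p ^ n) →+* S ⧸ I ^ n` when `p ∈ I`. -/
def zmodToQuot (hp : (p : S) ∈ I) (n : ℕ) : ZMod (p ^ n) →+* S ⧸ I ^ n :=
  letI := ringChar.charP (S ⧸ I ^ n)
  ZMod.castHom (ringChar.dvd (R := S ⧸ I ^ n) (x := p ^ n) (by
    have : ((p ^ n : ℕ) : S ⧸ I ^ n) = Ideal.Quotient.mk (I ^ n) ((p : S) ^ n) := by
      simp
    rw [this, Ideal.Quotient.eq_zero_iff_mem]
    exact Ideal.pow_mem_pow hp n)) (S ⧸ I ^ n)

variable [IsAdicComplete I S]

/-- the canonical ring homomorphism `ℤ_[p] →+* S` for an `I`-adically complete ring `S` with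
`p ∈ I`. -/
def padicToComplete (hp : (p : S) ∈ I) : ℤ_[p] →+* S :=
  IsAdicComplete.liftRingHom I (fun n => (zmodToQuot p I hp n).comp (PadicInt.toZModPow n))
    (by
      intro m n hle
      rw [← RingHom.comp_assoc, ← PadicInt.zmod_cast_comp_toZModPow m n hle,
        ← RingHom.comp_assoc]
      congr 1
      exact Subsingleton.elim _ _)

/-- the `p`-adic cyclotomic character with values in a complete ring `S` (`p ∈ I`). -/
def cycloCharO (hp : (p : S) ∈ I) : GQ →* Sˣ :=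
  (Units.map (padicToComplete p I hp).toMonoidHom).comp (padicCyclo p)

theorem cycloCharO_coe (hp : (p : S) ∈ I) (σ : GQ) :
    ((cycloCharO p I hp σ : Sˣ) : S)
      = padicToComplete p I hp ((padicCyclo p σ : ℤ_[p]ˣ) : ℤ_[p]) := rfl

/-- `ε(Frob_ℓ) = ℓ` for `ℓ ≠ p`. -/
theorem cycloCharO_frob (hp : (p : S) ∈ I) (ℓ : ℕ) (hℓ : ℓ.Prime) (hℓp : ℓ ≠ p)
    (A : ValuationSubring (AlgebraicClosure ℚ)) (hA : A.LiesOverPrime ℓ) (τ : GQ)
    (hτ : A.IsFrobeniusAt τ ℓ) :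
    ((cycloCharO p I hp τ : Sˣ) : S) = (ℓ : S) := by
  rw [cycloCharO_coe, padicCyclo_frob p ℓ hℓ hℓp A hA τ hτ, map_natCast]

/-- `ε` is trivial on inertia at `q ≠ p`. -/
theorem cycloCharO_inertia (hp : (p : S) ∈ I) (q : ℕ) (hq : q.Prime) (hqp : q ≠ p)
    (A : ValuationSubring (AlgebraicClosure ℚ)) (hA : A.LiesOverPrime q) (σ : GQ)
    (hσ : σ ∈ A.inertiaSubgroupIn ℚ) :
    cycloCharO p I hp σ = 1 := by
  rw [cycloCharO, MonoidHom.comp_apply, padicCyclo_inertia p q hq hqp A hA σ hσ, map_one]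

/-- `ε(c) = -1` for the prelude's complex conjugation `c`. -/
theorem cycloCharO_conj (hp : (p : S) ∈ I) :
    ((cycloCharO p I hp complexConjugation : Sˣ) : S) = -1 := by
  rw [cycloCharO_coe, padicCyclo_conj p complexConjugation complexConj_root, map_neg, map_one]

/-- link with the action on `p ^ n`-th roots of unity: `σ ζ = ζ ^ k` with `ε(σ) ≡ k mod p ^ n`. -/
theorem cycloCharO_spec (hp : (p : S) ∈ I) (σ : GQ) (n : ℕ) :
    ∃ k : ℕ, (∀ ζ : AlgebraicClosure ℚ, ζ ^ p ^ n = 1 → σ ζ = ζ ^ k) ∧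
      ((cycloCharO p I hp σ : Sˣ) : S) - (k : S) ∈ Ideal.span {(p : S) ^ n} := by
  refine ⟨(((padicCyclo p σ : ℤ_[p]ˣ) : ℤ_[p]).toZModPow n).val,
    fun ζ hζ => padicCyclo_spec p σ n hζ, ?_⟩
  obtain ⟨y, hy⟩ := Ideal.mem_span_singleton'.mp (padicCyclo_sub_mem p σ n)
  rw [Ideal.mem_span_singleton']
  refine ⟨padicToComplete p I hp y, ?_⟩
  have := congrArg (padicToComplete p I hp) hy
  rw [map_mul, map_pow, map_natCast, map_sub, map_natCast] at this
  rw [cycloCharO_coe]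
  exact this

/-- `ε(σ) ≡ 1 mod p ^ n` if `σ` fixes a primitive `p ^ n`-th root of unity. -/
theorem cycloCharO_sub_one_mem_span (hp : (p : S) ∈ I) (σ : GQ) (n : ℕ)
    {ζ : AlgebraicClosure ℚ} (hζ : IsPrimitiveRoot ζ (p ^ n)) (h : σ ζ = ζ) :
    ((cycloCharO p I hp σ : Sˣ) : S) - 1 ∈ Ideal.span {(p : S) ^ n} := by
  obtain ⟨y, hy⟩ := Ideal.mem_span_singleton'.mp (padicCyclo_sub_one_mem p σ n hζ h)
  rw [Ideal.mem_span_singleton']
  refine ⟨padicToComplete p I hp y, ?_⟩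
  have := congrArg (padicToComplete p I hp) hy
  rw [map_mul, map_pow, map_natCast, map_sub, map_one] at this
  rw [cycloCharO_coe]
  exact this

theorem cycloCharO_sub_one_mem_pow (hp : (p : S) ∈ I) (σ : GQ) (n : ℕ)
    {ζ : AlgebraicClosure ℚ} (hζ : IsPrimitiveRoot ζ (p ^ n)) (h : σ ζ = ζ) :
    ((cycloCharO p I hp σ : Sˣ) : S) - 1 ∈ I ^ n := by
  have h1 := cycloCharO_sub_one_mem_span p I hp σ n hζ h
  have h2 : Ideal.span {(p : S) ^ n} ≤ I ^ n := by
    rw [Ideal.span_singleton_le_iff_mem]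
    exact Ideal.pow_mem_pow hp n
  exact h2 h1

/-- adic continuity of `ε`: it is trivial mod `I ^ n` on `Gal(ℚ̄/ℚ(μ_{p ^ n}))`. -/
theorem cycloCharO_finiteLevel (hp : (p : S) ∈ I) (n : ℕ) :
    ∃ E : IntermediateField ℚ (AlgebraicClosure ℚ), FiniteDimensional ℚ E ∧
      ∀ σ : GQ, (∀ x ∈ E, σ x = x) → ((cycloCharO p I hp σ : Sˣ) : S) - 1 ∈ I ^ n := by
  have hpp : p.Prime := Fact.out
  have : NeZero ((p ^ n : ℕ) : AlgebraicClosure ℚ) :=
    ⟨Nat.cast_ne_zero.mpr (pow_ne_zero _ hpp.ne_zero)⟩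
  obtain ⟨ζ, hζ⟩ := HasEnoughRootsOfUnity.exists_primitiveRoot (AlgebraicClosure ℚ) (p ^ n)
  refine ⟨IntermediateField.adjoin ℚ {ζ}, ?_, ?_⟩
  · have hint : IsIntegral ℚ ζ := (hζ.isIntegral (pow_pos hpp.pos n)).tower_top
    exact IntermediateField.adjoin.finiteDimensional hint
  · intro σ hσ
    exact cycloCharO_sub_one_mem_pow p I hp σ n hζ
      (hσ ζ (IntermediateField.mem_adjoin_simple_self ℚ ζ))

end complete

/-- **S30 glue, cyclotomic piece.**  For a complete local ring `𝒪'` of residue characteristic `p`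
there is a character `ε : G_ℚ →* 𝒪'ˣ` (the `p`-adic cyclotomic character) and an involution
`c` (complex conjugation) with: `ε(Frob_ℓ) = ℓ` for `ℓ ≠ p`; `ε = 1` on inertia at `q ≠ p`;
`ε` is adically continuous; `ε(c) = -1`. -/
theorem exists_cycloCharO (p : ℕ) [Fact p.Prime] {𝒪' : Type*} [CommRing 𝒪'] [IsLocalRing 𝒪']
    [IsAdicComplete (IsLocalRing.maximalIdeal 𝒪') 𝒪']
    (hp : (p : 𝒪') ∈ IsLocalRing.maximalIdeal 𝒪') :
    ∃ (ε : GQ →* 𝒪'ˣ) (c : GQ),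
      (∀ ℓ : ℕ, ℓ.Prime → ℓ ≠ p → ∀ A : ValuationSubring (AlgebraicClosure ℚ),
        A.LiesOverPrime ℓ → ∀ τ : GQ, A.IsFrobeniusAt τ ℓ → ((ε τ : 𝒪'ˣ) : 𝒪') = (ℓ : 𝒪')) ∧
      (∀ q : ℕ, q.Prime → q ≠ p → ∀ A : ValuationSubring (AlgebraicClosure ℚ),
        A.LiesOverPrime q → ∀ σ ∈ A.inertiaSubgroupIn ℚ, ε σ = 1) ∧
      (∀ n : ℕ, ∃ E : IntermediateField ℚ (AlgebraicClosure ℚ), FiniteDimensional ℚ E ∧
        ∀ σ : GQ, (∀ x ∈ E, σ x = x) →
          ((ε σ : 𝒪'ˣ) : 𝒪') - 1 ∈ IsLocalRing.maximalIdeal 𝒪' ^ n) ∧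
      (∀ (σ : GQ) (n : ℕ), ∃ k : ℕ,
        (∀ ζ : AlgebraicClosure ℚ, ζ ^ p ^ n = 1 → σ ζ = ζ ^ k) ∧
          ((ε σ : 𝒪'ˣ) : 𝒪') - (k : 𝒪') ∈ Ideal.span {(p : 𝒪') ^ n}) ∧
      c * c = 1 ∧ ((ε c : 𝒪'ˣ) : 𝒪') = -1 :=
  ⟨cycloCharO p _ hp, complexConjugation,
    fun ℓ hℓ hℓp A hA τ hτ => cycloCharO_frob p _ hp ℓ hℓ hℓp A hA τ hτ,
    fun q hq hqp A hA σ hσ => cycloCharO_inertia p _ hp q hq hqp A hA σ hσ,
    fun n => cycloCharO_finiteLevel p _ hp n,
    fun σ n => cycloCharO_spec p _ hp σ n,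
    complexConjugation_mul_self, cycloCharO_conj p _ hp⟩

end Fermat.Agent.S30
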