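import Mathlib
import Fermat.Agent.S31.Kills
import Fermat.Agent.S30.Cyclo

/-!
# S30 input (I): the pseudo-character attached to a point of the Hecke algebra

From the faithful `p`-adic Eichler–Shimura package (`S31.ESPkgFaith N p`) and weak Chebotarev we
construct, for every ring homomorphism `χ : heckeAlgebra N 2 S →+* 𝒪'` into a complete local ring
with `p ∈ 𝔪`, a function `t : G_ℚ → 𝒪'` which is a 2-dimensional pseudo-character with determinant
the `p`-adic cyclotomic character `ε`: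

* `t 1 = 2`, `t (x * y) = t (y * x)`, `t (x * y) + ε y * t (x * y⁻¹) = t x * t y`;
* `t (Frob_ℓ) = χ (T_ℓ)` for `ℓ ∉ S`;
* `t (σ * g) = t g` for `σ` in an inertia group at `q ∤ N p`;
* `t` is adically continuous.

Construction: on `J[pⁿ]` the operator `g + χ_cyc(g) g⁻¹` is a Hecke polynomial `h` in the variables
outside `S` (weak Chebotarev + Lucas); `h` is unique up to polynomials killing `J[pⁿ]`, and by
faithfulness `χ(h)` is well defined modulo `pᵏ`. Then `t g = lim χ(h)`.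
-/

set_option autoImplicit false

noncomputable section

namespace Fermat.Agent.S30

open ModularCurve Fermat.Agent.ES Fermat.Agent.S31

/-! ### the integer `e_n(g)` representing `χ_cyc(g) mod p ^ n` -/

section cycE

variable (p : ℕ) [Fact p.Prime]

/-- the natural number `< p ^ n` representing the cyclotomic character of `g` modulo `p ^ n` -/
def cycE (n : ℕ) (g : GQ) : ℕ :=
  (((padicCyclo p g : ℤ_[p]ˣ) : ℤ_[p]).toZModPow n).val

theorem cycE_cast (n : ℕ) (g : GQ) :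
    ((cycE p n g : ℕ) : ZMod (p ^ n)) = ((padicCyclo p g : ℤ_[p]ˣ) : ℤ_[p]).toZModPow n := by
  have : NeZero (p ^ n) := ⟨pow_ne_zero _ (Fact.out : p.Prime).ne_zero⟩
  exact ZMod.natCast_zmod_val _

theorem cycE_modEq_iff (n : ℕ) (g : GQ) (a : ℕ) :
    cycE p n g ≡ a [MOD p ^ n] ↔
      ((padicCyclo p g : ℤ_[p]ˣ) : ℤ_[p]).toZModPow n = (a : ZMod (p ^ n)) := by
  rw [← ZMod.natCast_eq_natCast_iff, cycE_cast]

theorem cycE_one (n : ℕ) : cycE p n 1 ≡ 1 [MOD p ^ n] := by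
  rw [cycE_modEq_iff, map_one, Units.val_one, map_one, Nat.cast_one]

theorem cycE_mul (n : ℕ) (g h : GQ) : cycE p n (g * h) ≡ cycE p n g * cycE p n h [MOD p ^ n] := by
  rw [cycE_modEq_iff, map_mul, Units.val_mul, map_mul, Nat.cast_mul, cycE_cast, cycE_cast]

theorem cycE_conj (n : ℕ) (y g : GQ) : cycE p n (y * g * y⁻¹) = cycE p n g := by
  unfold cycE
  rw [map_mul, map_mul, map_inv, mul_comm, inv_mul_cancel_left]

theorem cycE_mul_inv (n : ℕ) (g : GQ) : cycE p n g * cycE p n g⁻¹ ≡ 1 [MOD p ^ n] :=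
  ((cycE_mul p n g g⁻¹).symm.trans (by rw [mul_inv_cancel]; exact cycE_one p n))

theorem cycE_restrict {n' n : ℕ} (h : n' ≤ n) (g : GQ) :
    cycE p n g ≡ cycE p n' g [MOD p ^ n'] := by
  rw [Nat.ModEq.comm, cycE_modEq_iff, ← PadicInt.zmod_cast_comp_toZModPow n' n h]
  simp only [RingHom.comp_apply, ZMod.castHom_apply]
  unfold cycE
  rw [ZMod.natCast_val]

theorem cycE_of_apply (n : ℕ) (g : GQ) (a : ℕ) {ζ : AlgebraicClosure ℚ}
    (hζ : IsPrimitiveRoot ζ (p ^ n)) (h : g ζ = ζ ^ a) : cycE p n g ≡ a [MOD p ^ n] := by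
  rw [cycE_modEq_iff]
  exact padicCyclo_toZModPow p g n a hζ h

theorem cycE_of_eq_one (n : ℕ) (g : GQ) (h : padicCyclo p g = 1) : cycE p n g ≡ 1 [MOD p ^ n] := by
  rw [cycE_modEq_iff, h, Units.val_one, map_one, Nat.cast_one]

theorem cycloCharO_sub_cycE {S : Type*} [CommRing S] (I : Ideal S) [IsAdicComplete I S]
    (hp : (p : S) ∈ I) (n : ℕ) (g : GQ) :
    ((cycloCharO p I hp g : Sˣ) : S) - (cycE p n g : S) ∈ Ideal.span {(p : S) ^ n} := by
  obtain ⟨y, hy⟩ := Ideal.mem_span_singleton'.mp (padicCyclo_sub_mem p g n)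
  rw [Ideal.mem_span_singleton']
  refine ⟨padicToComplete p I hp y, ?_⟩
  have := congrArg (padicToComplete p I hp) hy
  rw [map_mul, map_pow, map_natCast, map_sub, map_natCast] at this
  rw [cycloCharO_coe]
  exact this

end cycE

/-! ### finite level: Hecke polynomials representing `g + χ_cyc(g) g⁻¹` on `J[p ^ n]` -/

section approx

variable (p : ℕ) [Fact p.Prime] (J : Type) [AddCommGroup J] [Module HeckeAlg J]
  [DistribMulAction GQ J]

/-- `h` represents the operator `g + χ_cyc(g) g⁻¹` on `J[p ^ n]` -/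
def Approx (n : ℕ) (g : GQ) (h : HeckeAlg) : Prop :=
  ∀ x : J, p ^ n • x = 0 → g • x + cycE p n g • (g⁻¹ • x) = h • x

variable {p J}

omit [Fact p.Prime] [DistribMulAction GQ J] in
theorem torsion_hecke (n : ℕ) (h : HeckeAlg) {x : J} (hx : p ^ n • x = 0) :
    p ^ n • (h • x) = 0 := by
  rw [smul_comm, hx, smul_zero]

omit [Fact p.Prime] [DistribMulAction GQ J] [Module HeckeAlg J] in
theorem torsion_le {n' n : ℕ} (h : n' ≤ n) {x : J} (hx : p ^ n' • x = 0) : p ^ n • x = 0 := by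
  obtain ⟨d, rfl⟩ := Nat.exists_eq_add_of_le h
  rw [pow_add, mul_comm, mul_smul, hx, smul_zero]

theorem approx_one (n : ℕ) : Approx p J n 1 2 := by
  intro x hx
  rw [one_smul, inv_one, one_smul, nsmul_eq_of_modEq (cycE_one p n) hx, one_smul, two_smul]

theorem approx_restrict {n' n : ℕ} (hn : n' ≤ n) {g : GQ} {h : HeckeAlg}
    (H : Approx p J n g h) : Approx p J n' g h := by
  intro x hx
  rw [← H x (torsion_le hn hx),
    nsmul_eq_of_modEq (cycE_restrict p hn g) (torsion_smul n' g⁻¹ hx)]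

theorem approx_conj (hcomm : ∀ (σ : GQ) (t : HeckeAlg) (x : J), σ • t • x = t • σ • x)
    {n : ℕ} {g : GQ} {h : HeckeAlg} (H : Approx p J n g h) (y : GQ) :
    Approx p J n (y * g * y⁻¹) h := by
  intro x hx
  have h1 := H (y⁻¹ • x) (torsion_smul n y⁻¹ hx)
  have h2 := congrArg (fun w => y • w) h1
  simp only [smul_add] at h2
  rw [hcomm, smul_inv_smul, smul_comm y (cycE p n g)] at h2
  rw [← h2, cycE_conj, mul_inv_rev, mul_inv_rev, inv_inv, mul_smul, mul_smul, mul_smul, mul_smul]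

/-- if `σ` acts trivially on `J[p ^ n]` and on `μ_{p ^ n}`, then `σ g` and `g` have the same
representatives -/
theorem approx_mul_left_of_trivial {n : ℕ} {σ g : GQ} {h : HeckeAlg}
    (hσ : ∀ x : J, p ^ n • x = 0 → σ • x = x) (hσe : cycE p n σ ≡ 1 [MOD p ^ n])
    (H : Approx p J n g h) : Approx p J n (σ * g) h := by
  intro x hx
  have hσinv : σ⁻¹ • x = x := by
    have := hσ x hx
    rw [← this, inv_smul_smul, this]
  have he : cycE p n (σ * g) ≡ cycE p n g [MOD p ^ n] := by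
    have := (cycE_mul p n σ g).trans (Nat.ModEq.mul_right _ hσe)
    rwa [one_mul] at this
  rw [mul_smul, hσ _ (torsion_smul n g hx), mul_inv_rev, mul_smul, hσinv,
    nsmul_eq_of_modEq he (torsion_smul n g⁻¹ hx)]
  exact H x hx

/-- the pseudo-character identity at finite level -/
theorem approx_mul (hcomm : ∀ (σ : GQ) (t : HeckeAlg) (x : J), σ • t • x = t • σ • x)
    {n : ℕ} {x y : GQ} {hx hy hxy hxy' : HeckeAlg}
    (Hx : Approx p J n x hx) (Hy : Approx p J n y hy) (Hxy : Approx p J n (x * y) hxy)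
    (Hxy' : Approx p J n (x * y⁻¹) hxy') (z : J) (hz : p ^ n • z = 0) :
    (hxy + (cycE p n y : HeckeAlg) * hxy' - hx * hy) • z = 0 := by
  -- (1)
  have e1 : hxy • z = x • y • z + (cycE p n x * cycE p n y) • (y⁻¹ • x⁻¹ • z) := by
    rw [← Hxy z hz, mul_smul, mul_inv_rev, mul_smul,
      nsmul_eq_of_modEq (cycE_mul p n x y) (torsion_smul n _ (torsion_smul n _ hz))]
  -- (2)
  have hmod : cycE p n y * cycE p n (x * y⁻¹) ≡ cycE p n x [MOD p ^ n] := by
    have h1 : cycE p n y * cycE p n (x * y⁻¹) ≡ cycE p n y * (cycE p n x * cycE p n y⁻¹)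
        [MOD p ^ n] := Nat.ModEq.mul_left _ (cycE_mul p n x y⁻¹)
    have h2 : cycE p n y * (cycE p n x * cycE p n y⁻¹)
        = cycE p n x * (cycE p n y * cycE p n y⁻¹) := by ring
    rw [h2] at h1
    have h3 : cycE p n x * (cycE p n y * cycE p n y⁻¹) ≡ cycE p n x * 1 [MOD p ^ n] :=
      Nat.ModEq.mul_left _ (cycE_mul_inv p n y)
    rw [mul_one] at h3
    exact h1.trans h3
  have e2 : ((cycE p n y : HeckeAlg) * hxy') • z
      = cycE p n y • (x • y⁻¹ • z) + cycE p n x • (y • x⁻¹ • z) := by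
    rw [mul_smul, ← Hxy' z hz, Nat.cast_smul_eq_nsmul, smul_add, mul_smul, mul_inv_rev, inv_inv,
      mul_smul, ← mul_smul (cycE p n y) (cycE p n (x * y⁻¹)),
      nsmul_eq_of_modEq hmod (torsion_smul n _ (torsion_smul n _ hz))]
  -- (3)
  have e3 : (hx * hy) • z = x • y • z + cycE p n y • (x • y⁻¹ • z)
      + cycE p n x • (y • x⁻¹ • z + cycE p n y • (y⁻¹ • x⁻¹ • z)) := by
    rw [mul_smul, ← Hx (hy • z) (torsion_hecke n hy hz), hcomm x⁻¹ hy z,
      ← Hy (x⁻¹ • z) (torsion_smul n _ hz), ← Hy z hz, smul_add, smul_comm x (cycE p n y)]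
  rw [sub_smul, add_smul, e1, e2, e3]
  generalize x • y • z = a
  generalize y⁻¹ • x⁻¹ • z = b
  generalize x • y⁻¹ • z = c
  generalize y • x⁻¹ • z = d
  module

end approx

/-! ### existence of representatives -/

section exists_approx

variable {p : ℕ} [Fact p.Prime] {N : ℕ} {J : Type} [AddCommGroup J] [Module HeckeAlg J]
  [DistribMulAction GQ J]

theorem ne_of_not_dvd_mul {r : ℕ} (hr : ¬ r ∣ N * p) : r ≠ p := by
  rintro rfl
  exact hr (dvd_mul_left _ _)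

/-- a Frobenius `τ` at `ℓ ∤ N p` is represented by `T_ℓ` -/
theorem approx_frob (hJ : ESDataInf N p J) (n : ℕ) {ℓ : ℕ} (hℓ : ℓ.Prime) (hℓNp : ¬ ℓ ∣ N * p)
    {A : ValuationSubring (AlgebraicClosure ℚ)} (hA : A.LiesOverPrime ℓ)
    {τ : GQ} (hτ : A.IsFrobeniusAt τ ℓ) : Approx p J n τ (heckeGen ⟨ℓ, hℓ⟩) := by
  intro x hx
  have h := hJ.frob ℓ hℓ hℓNp A hA τ hτ (τ⁻¹ • x) ⟨n, torsion_smul n τ⁻¹ hx⟩
  rw [smul_inv_smul] at h
  have he : cycE p n τ ≡ ℓ [MOD p ^ n] := by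
    rw [cycE_modEq_iff, padicCyclo_frob p ℓ hℓ (ne_of_not_dvd_mul hℓNp) A hA τ hτ, map_natCast]
  rw [nsmul_eq_of_modEq he (torsion_smul n τ⁻¹ hx)]
  have h2 : τ • x + ℓ • τ⁻¹ • x - heckeGen ⟨ℓ, hℓ⟩ • x = 0 := by
    rw [← h]; abel
  exact sub_eq_zero.mp h2

/-- every `g` has a representative at every level (weak Chebotarev + Lucas) -/
theorem exists_approx (hcheb : Cheb.WeakChebotarev) (hJ : ESDataInf N p J) (S : Finset ℕ)
    (hgood : ∀ r : ℕ, r.Prime → r ∉ S → ¬ r ∣ N * p) (n : ℕ) (g : GQ) :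
    ∃ h ∈ MvPolynomial.supported ℤ (outsideVars (↑S : Set ℕ)), Approx p J n g h := by
  have hp : p.Prime := Fact.out
  obtain ⟨E, hEfin, hE⟩ := exists_common_field hJ n
  have hM0 : p ^ n ≠ 0 := pow_ne_zero n hp.ne_zero
  have : NeZero ((p ^ n : ℕ) : AlgebraicClosure ℚ) := ⟨Nat.cast_ne_zero.mpr hM0⟩
  obtain ⟨ζ, hζ⟩ := HasEnoughRootsOfUnity.exists_primitiveRoot (AlgebraicClosure ℚ) (p ^ n)
  have hζfin : FiniteDimensional ℚ (IntermediateField.adjoin ℚ {ζ}) :=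
    IntermediateField.adjoin.finiteDimensional ((hζ.isIntegral (Nat.pos_of_ne_zero hM0)).tower_top)
  obtain ⟨F, hFfin, hFgal, hEF, -, hζF⟩ :=
    exists_galois_hull E E (IntermediateField.adjoin ℚ {ζ})
  have hζF' : ζ ∈ F := hζF (IntermediateField.mem_adjoin_simple_self ℚ ζ)
  have hF : ∀ σ : GQ, (∀ a ∈ F, σ a = a) → ∀ x : J, p ^ n • x = 0 → σ • x = x :=
    fun σ h => hE σ fun a ha => h a (hEF ha)
  obtain ⟨ℓ, A, τ, m, hℓ, hℓS, hA, hτ, hg⟩ := hcheb F S g
  have hℓNp := hgood ℓ hℓ hℓS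
  refine ⟨lucasS (heckeGen ⟨ℓ, hℓ⟩) (ℓ : HeckeAlg) m, ?_, ?_⟩
  · refine lucasS_mem_subalgebra _ ?_ (natCast_mem _ ℓ) m
    exact (MvPolynomial.X_mem_supported (R := ℤ)).mpr hℓS
  · intro x hx
    have h1 := lucas_galois hJ n F hF hℓ hℓNp hA hτ m g hg hx
    have hζ1 : ζ ^ (p ^ n) = 1 := hζ.pow_eq_one
    have h2 : (τ ^ m) ζ = ζ ^ (ℓ ^ m) :=
      frob_pow_rootOfUnity A (natCast_pow_not_mem_nonunits A hp hℓ (ne_of_not_dvd_mul hℓNp) hA n)
        hM0 hτ hζ1 m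
    have h3 : g ζ = ζ ^ (ℓ ^ m) := by rw [← hg ζ hζF', h2]
    have he : cycE p n g ≡ ℓ ^ m [MOD p ^ n] := cycE_of_apply p n g _ hζ h3
    rw [nsmul_eq_of_modEq he (torsion_smul n g⁻¹ hx)]
    exact h1

/-- adic continuity at finite level: there is a finite extension `E/ℚ` such that `σ g` and `g`
have the same representatives at level `n` for all `σ` fixing `E` -/
theorem exists_field_approx (hJ : ESDataInf N p J) (n : ℕ) :
    ∃ E : IntermediateField ℚ (AlgebraicClosure ℚ), FiniteDimensional ℚ E ∧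
      ∀ σ : GQ, (∀ a ∈ E, σ a = a) → ∀ (g : GQ) (h : HeckeAlg),
        Approx p J n g h → Approx p J n (σ * g) h := by
  have hp : p.Prime := Fact.out
  obtain ⟨E, hEfin, hE⟩ := exists_common_field hJ n
  have hM0 : p ^ n ≠ 0 := pow_ne_zero n hp.ne_zero
  have : NeZero ((p ^ n : ℕ) : AlgebraicClosure ℚ) := ⟨Nat.cast_ne_zero.mpr hM0⟩
  obtain ⟨ζ, hζ⟩ := HasEnoughRootsOfUnity.exists_primitiveRoot (AlgebraicClosure ℚ) (p ^ n)
  have hζfin : FiniteDimensional ℚ (IntermediateField.adjoin ℚ {ζ}) :=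
    IntermediateField.adjoin.finiteDimensional ((hζ.isIntegral (Nat.pos_of_ne_zero hM0)).tower_top)
  obtain ⟨F, hFfin, hFgal, hEF, -, hζF⟩ :=
    exists_galois_hull E E (IntermediateField.adjoin ℚ {ζ})
  have hζF' : ζ ∈ F := hζF (IntermediateField.mem_adjoin_simple_self ℚ ζ)
  refine ⟨F, hFfin, ?_⟩
  intro σ hσ g h H
  apply approx_mul_left_of_trivial (fun x hx => hE σ (fun a ha => hσ a (hEF ha)) x hx) _ H
  apply cycE_of_apply p n σ 1 hζ
  rw [pow_one]
  exact hσ ζ hζF'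

/-- inertia at `q ∤ N p`: `σ g` and `g` have the same representatives -/
theorem approx_inertia (hJ : ESDataInf N p J) (n : ℕ) {q : ℕ} (hq : q.Prime)
    (hqNp : ¬ q ∣ N * p) {P : ValuationSubring (AlgebraicClosure ℚ)} (hP : P.LiesOverPrime q)
    {σ : GQ} (hσ : σ ∈ P.inertiaSubgroupIn ℚ) {g : GQ} {h : HeckeAlg}
    (H : Approx p J n g h) : Approx p J n (σ * g) h := by
  apply approx_mul_left_of_trivial (fun x hx => hJ.unram q hq hqNp P hP σ hσ x ⟨n, hx⟩) _ H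
  exact cycE_of_eq_one p n σ (padicCyclo_inertia p q hq (ne_of_not_dvd_mul hqNp) P hP σ hσ)

end exists_approx

/-! ### faithfulness and the limit -/

section limit

variable {p : ℕ} [Fact p.Prime] {N : ℕ} [NeZero N] {J : Type} [AddCommGroup J]
  [Module HeckeAlg J] [DistribMulAction GQ J] (S : Finset ℕ) {𝒪' : Type*} [CommRing 𝒪']
  (χ : CuspForm.heckeAlgebra N 2 (↑S : Set ℕ) →+* 𝒪')

/-- the value of `χ` on Hecke polynomials -/
def chiHom : HeckeAlg →+* 𝒪' := χ.comp (evalS N (↑S : Set ℕ)).toRingHom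

theorem chiHom_apply (h : HeckeAlg) : chiHom S χ h = χ (evalS N (↑S : Set ℕ) h) := rfl

theorem chiHom_heckeGen {ℓ : ℕ} (hℓ : ℓ.Prime) (hℓN : ¬ ℓ ∣ N) (hℓS : ℓ ∉ (↑S : Set ℕ)) :
    chiHom S χ (heckeGen ⟨ℓ, hℓ⟩) = χ (CuspForm.heckeAlgebra.T hℓ hℓN hℓS) := by
  rw [chiHom_apply, evalS_heckeGen hℓ hℓN hℓS]

variable (p J) in
/-- level `n` is good for the precision `k`: a Hecke polynomial (in the variables outside `S`)
killing `J[p ^ n]` has `χ`-value divisible by `p ^ k` -/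
def Good (k n : ℕ) : Prop :=
  ∀ h ∈ MvPolynomial.supported ℤ (outsideVars (↑S : Set ℕ)),
    (∀ x : J, p ^ n • x = 0 → h • x = 0) → chiHom S χ h ∈ Ideal.span {(p : 𝒪') ^ k}

variable {S χ}

omit [Fact p.Prime] [DistribMulAction GQ J] in
theorem Good.mono_level {k n n' : ℕ} (h : Good p J S χ k n) (hn : n ≤ n') : Good p J S χ k n' :=
  fun t ht hkill => h t ht (fun x hx => hkill x (torsion_le hn hx))

omit [Fact p.Prime] [DistribMulAction GQ J] in
theorem Good.mono_prec {k k' n : ℕ} (h : Good p J S χ k n) (hk : k' ≤ k) : Good p J S χ k' n := by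
  intro t ht hkill
  exact (Ideal.span_singleton_le_span_singleton.mpr (pow_dvd_pow _ hk)) (h t ht hkill)

variable (S χ)

omit [Fact p.Prime] [DistribMulAction GQ J] in
theorem exists_good (hfaith : ESFaith N p J) (hgoodN : ∀ r : ℕ, r.Prime → r ∉ S → ¬ r ∣ N)
    (hgood : ∀ r : ℕ, r.Prime → r ∉ S → ¬ r ∣ N * p) (k : ℕ) :
    ∃ n : ℕ, k ≤ n ∧ Good p J S χ k n := by
  set Sg : Set Nat.Primes := outsideVars (↑S : Set ℕ) with hSgdef
  have hSg : Sg ⊆ goodPrimes N p := fun r hr => hgood r r.2 hr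
  have hSg' : ∀ r ∈ Sg, ¬ (r : ℕ) ∣ N ∧ (r : ℕ) ∉ (↑S : Set ℕ) := fun r hr =>
    ⟨hgoodN r r.2 hr, hr⟩
  obtain ⟨n, hn⟩ := hfaith Sg hSg k
  have hG : Good p J S χ k n := by
    intro D hDsupp hDkill
    obtain ⟨s, hs, hDs⟩ := hn D hDsupp hDkill
    have hev : evalS N (↑S : Set ℕ) D = (p : ℤ) ^ k • evalS N (↑S : Set ℕ) s := by
      apply Subtype.ext
      rw [coe_evalS_eq hSg' hDsupp, hDs]
      have := coe_evalS_eq hSg' hs
      rw [Subalgebra.coe_smul, Subalgebra.coe_smul, this]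
    rw [chiHom_apply, hev, map_zsmul, zsmul_eq_mul, Int.cast_pow, Int.cast_natCast]
    exact Ideal.mem_span_singleton'.mpr ⟨_, mul_comm _ _⟩
  exact ⟨max k n, le_max_left _ _, hG.mono_level (le_max_right _ _)⟩

variable {S χ}

/-- two representatives of `g` at good levels have the same `χ`-value modulo `p ^ k` -/
theorem approx_unique {k n n' : ℕ} (hn : Good p J S χ k n) (hn' : Good p J S χ k n') {g : GQ}
    {h h' : HeckeAlg} (hh : h ∈ MvPolynomial.supported ℤ (outsideVars (↑S : Set ℕ)))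
    (hh' : h' ∈ MvPolynomial.supported ℤ (outsideVars (↑S : Set ℕ)))
    (H : Approx p J n g h) (H' : Approx p J n' g h') :
    chiHom S χ h - chiHom S χ h' ∈ Ideal.span {(p : 𝒪') ^ k} := by
  rw [← map_sub]
  rcases le_total n n' with hle | hle
  · apply hn _ (sub_mem hh hh')
    intro x hx
    rw [sub_smul, ← H x hx, ← approx_restrict hle H' x hx, sub_self]
  · apply hn' _ (sub_mem hh hh')
    intro x hx
    rw [sub_smul, ← H' x hx, ← approx_restrict hle H x hx, sub_self]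

omit [Fact p.Prime] [NeZero N] in
theorem span_pow_le (I : Ideal 𝒪') (hpI : (p : 𝒪') ∈ I) (k : ℕ) :
    Ideal.span {(p : 𝒪') ^ k} ≤ I ^ k := by
  rw [Ideal.span_singleton_le_iff_mem]
  exact Ideal.pow_mem_pow hpI k

/-- **the trace function**: `t g` is the limit of the `χ`-values of the representatives of `g`. -/
theorem exists_traceFun (I : Ideal 𝒪') [IsAdicComplete I 𝒪'] (hpI : (p : 𝒪') ∈ I)
    (hcheb : Cheb.WeakChebotarev) (hJ : ESDataInf N p J) (hfaith : ESFaith N p J)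
    (hgoodN : ∀ r : ℕ, r.Prime → r ∉ S → ¬ r ∣ N)
    (hgood : ∀ r : ℕ, r.Prime → r ∉ S → ¬ r ∣ N * p) :
    ∃ t : GQ → 𝒪', ∀ (g : GQ) (k n : ℕ) (h : HeckeAlg), Good p J S χ k n →
      h ∈ MvPolynomial.supported ℤ (outsideVars (↑S : Set ℕ)) → Approx p J n g h →
        t g - chiHom S χ h ∈ I ^ k := by
  choose lvl hlvl_ge hlvl using exists_good (J := J) S χ hfaith hgoodN hgood
  have hex : ∀ (g : GQ) (k : ℕ), ∃ h ∈ MvPolynomial.supported ℤ (outsideVars (↑S : Set ℕ)),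
      Approx p J (lvl k) g h := fun g k => exists_approx hcheb hJ S hgood (lvl k) g
  choose H hHsupp hHapprox using hex
  have hcauchy : ∀ g : GQ, ∃ L : 𝒪', ∀ k : ℕ,
      chiHom S χ (H g k) ≡ L [SMOD (I ^ k • ⊤ : Submodule 𝒪' 𝒪')] := by
    intro g
    apply IsPrecomplete.prec (I := I) (M := 𝒪') inferInstance
    intro m n hmn
    rw [SModEq.sub_mem, smul_eq_mul, Ideal.mul_top]
    exact span_pow_le I hpI m (approx_unique (hlvl m) ((hlvl n).mono_prec hmn)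
      (hHsupp g m) (hHsupp g n) (hHapprox g m) (hHapprox g n))
  choose t ht using hcauchy
  refine ⟨t, fun g k n h hG hh hA => ?_⟩
  have h1 := ht g k
  rw [SModEq.sub_mem, smul_eq_mul, Ideal.mul_top] at h1
  have h2 := span_pow_le I hpI k (approx_unique (hlvl k) hG (hHsupp g k) hh (hHapprox g k) hA)
  have : t g - chiHom S χ h = -(chiHom S χ (H g k) - t g)
      + (chiHom S χ (H g k) - chiHom S χ h) := by ring
  rw [this]
  exact add_mem (neg_mem h1) h2

end limit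

/-! ### the pseudo-character -/

/-- a 2-dimensional pseudo-character `t` with determinant `ε` -/
structure IsPseudoChar2 {G R : Type*} [Group G] [CommRing R] (ε : G →* Rˣ) (t : G → R) :
    Prop where
  map_one : t 1 = 2
  comm : ∀ x y : G, t (x * y) = t (y * x)
  mul : ∀ x y : G, t (x * y) + (ε y : R) * t (x * y⁻¹) = t x * t y

section main

variable {p : ℕ} [Fact p.Prime] {N : ℕ} [NeZero N] {J : Type} [AddCommGroup J]
  [Module HeckeAlg J] [DistribMulAction GQ J] {S : Finset ℕ} {𝒪' : Type*} [CommRing 𝒪']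
  {χ : CuspForm.heckeAlgebra N 2 (↑S : Set ℕ) →+* 𝒪'}

omit [Fact p.Prime] [NeZero N] in
theorem eq_of_forall_sub_mem (I : Ideal 𝒪') [IsAdicComplete I 𝒪'] {a b : 𝒪'}
    (h : ∀ k : ℕ, a - b ∈ I ^ k) : a = b := by
  rw [← sub_eq_zero]
  apply IsHausdorff.haus (I := I) (M := 𝒪') inferInstance
  intro k
  rw [SModEq.sub_mem, sub_zero, smul_eq_mul, Ideal.mul_top]
  exact h k

/-- the properties of the trace function -/
theorem pseudoChar_of_spec (I : Ideal 𝒪') [IsAdicComplete I 𝒪'] (hpI : (p : 𝒪') ∈ I)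
    (hcheb : Cheb.WeakChebotarev) (hJ : ESDataInf N p J) (hfaith : ESFaith N p J)
    (hgoodN : ∀ r : ℕ, r.Prime → r ∉ S → ¬ r ∣ N)
    (hgood : ∀ r : ℕ, r.Prime → r ∉ S → ¬ r ∣ N * p)
    (t : GQ → 𝒪')
    (ht : ∀ (g : GQ) (k n : ℕ) (h : HeckeAlg), Good p J S χ k n →
      h ∈ MvPolynomial.supported ℤ (outsideVars (↑S : Set ℕ)) → Approx p J n g h →
        t g - chiHom S χ h ∈ I ^ k) :
    IsPseudoChar2 (cycloCharO p I hpI) t ∧
    (∀ (ℓ : ℕ) (hℓ : ℓ.Prime) (hℓN : ¬ ℓ ∣ N) (hℓS : ℓ ∉ (↑S : Set ℕ)),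
      ∀ A : ValuationSubring (AlgebraicClosure ℚ), A.LiesOverPrime ℓ →
        ∀ τ : GQ, A.IsFrobeniusAt τ ℓ → t τ = χ (CuspForm.heckeAlgebra.T hℓ hℓN hℓS)) ∧
    (∀ q : ℕ, q.Prime → ¬ q ∣ N * p → ∀ P : ValuationSubring (AlgebraicClosure ℚ),
      P.LiesOverPrime q → ∀ σ ∈ P.inertiaSubgroupIn ℚ, ∀ g : GQ, t (σ * g) = t g) ∧
    (∀ k : ℕ, ∃ E : IntermediateField ℚ (AlgebraicClosure ℚ), FiniteDimensional ℚ E ∧
      ∀ σ : GQ, (∀ a ∈ E, σ a = a) → ∀ g : GQ, t (σ * g) - t g ∈ I ^ k) := by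
  have hG := exists_good (J := J) S χ hfaith hgoodN hgood
  have hA := fun n g => exists_approx hcheb hJ S hgood n g
  -- a general principle: same representative ⇒ congruent values
  have hsame : ∀ (k n : ℕ) (g g' : GQ) (h : HeckeAlg), Good p J S χ k n →
      h ∈ MvPolynomial.supported ℤ (outsideVars (↑S : Set ℕ)) → Approx p J n g h →
      Approx p J n g' h → t g' - t g ∈ I ^ k := by
    intro k n g g' h hGn hh H H'
    have h1 := ht g k n h hGn hh H
    have h2 := ht g' k n h hGn hh H'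
    have : t g' - t g = (t g' - chiHom S χ h) - (t g - chiHom S χ h) := by ring
    rw [this]
    exact sub_mem h2 h1
  refine ⟨⟨?_, ?_, ?_⟩, ?_, ?_, ?_⟩
  · -- `t 1 = 2`
    apply eq_of_forall_sub_mem I
    intro k
    obtain ⟨n, -, hn⟩ := hG k
    have := ht 1 k n 2 hn (ofNat_mem _ 2) (approx_one n)
    rwa [map_ofNat] at this
  · -- `t (x y) = t (y x)`
    intro x y
    apply eq_of_forall_sub_mem I
    intro k
    obtain ⟨n, -, hn⟩ := hG k
    obtain ⟨h, hh, H⟩ := hA n (y * x)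
    have H' := approx_conj hJ.smul_comm H y⁻¹
    have e : y⁻¹ * (y * x) * y⁻¹⁻¹ = x * y := by group
    rw [e] at H'
    exact hsame k n (y * x) (x * y) h hn hh H H'
  · -- the pseudo-character identity
    intro x y
    apply eq_of_forall_sub_mem I
    intro k
    obtain ⟨n, hkn, hn⟩ := hG k
    obtain ⟨hx, hhx, Hx⟩ := hA n x
    obtain ⟨hy, hhy, Hy⟩ := hA n y
    obtain ⟨hxy, hhxy, Hxy⟩ := hA n (x * y)
    obtain ⟨hxy', hhxy', Hxy'⟩ := hA n (x * y⁻¹)
    have hD := approx_mul hJ.smul_comm Hx Hy Hxy Hxy'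
    have hDsupp : hxy + (cycE p n y : HeckeAlg) * hxy' - hx * hy ∈
        MvPolynomial.supported ℤ (outsideVars (↑S : Set ℕ)) :=
      sub_mem (add_mem hhxy (mul_mem (natCast_mem _ _) hhxy')) (mul_mem hhx hhy)
    have h0 := span_pow_le I hpI k (hn _ hDsupp hD)
    rw [map_sub, map_add, map_mul, map_mul, map_natCast] at h0
    have h1 := ht x k n hx hn hhx Hx
    have h2 := ht y k n hy hn hhy Hy
    have h3 := ht (x * y) k n hxy hn hhxy Hxy
    have h4 := ht (x * y⁻¹) k n hxy' hn hhxy' Hxy'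
    have h5 : ((cycloCharO p I hpI y : 𝒪'ˣ) : 𝒪') - (cycE p n y : 𝒪') ∈ I ^ k :=
      Ideal.pow_le_pow_right hkn (span_pow_le I hpI n (cycloCharO_sub_cycE p I hpI n y))
    rw [← Ideal.Quotient.eq_zero_iff_mem] at h0 h1 h2 h3 h4 h5 ⊢
    rw [map_sub, sub_eq_zero] at h1 h2 h3 h4 h5
    simp only [map_sub, map_add, map_mul] at h0 ⊢
    rw [h1, h2, h3, h4, h5]
    exact h0
  · -- Frobenius
    intro ℓ hℓ hℓN hℓS A hAℓ τ hτ
    apply eq_of_forall_sub_mem I
    intro k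
    obtain ⟨n, -, hn⟩ := hG k
    have hℓNp : ¬ ℓ ∣ N * p := hgood ℓ hℓ hℓS
    have := ht τ k n (heckeGen ⟨ℓ, hℓ⟩) hn
      ((MvPolynomial.X_mem_supported (R := ℤ)).mpr hℓS) (approx_frob hJ n hℓ hℓNp hAℓ hτ)
    rwa [chiHom_heckeGen S χ hℓ hℓN hℓS] at this
  · -- inertia
    intro q hq hqNp P hP σ hσ g
    apply eq_of_forall_sub_mem I
    intro k
    obtain ⟨n, -, hn⟩ := hG k
    obtain ⟨h, hh, H⟩ := hA n g
    exact hsame k n g (σ * g) h hn hh H (approx_inertia hJ n hq hqNp hP hσ H)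
  · -- continuity
    intro k
    obtain ⟨n, -, hn⟩ := hG k
    obtain ⟨E, hEfin, hE⟩ := exists_field_approx (J := J) hJ n
    refine ⟨E, hEfin, fun σ hσ g => ?_⟩
    obtain ⟨h, hh, H⟩ := hA n g
    exact hsame k n g (σ * g) h hn hh H (hE σ hσ g h H)

/-- **S30 input (I).** From weak Chebotarev and the faithful `p`-adic Eichler–Shimura package:
for every `χ : heckeAlgebra N 2 S →+* 𝒪'` (`𝒪'` `I`-adically complete, `p ∈ I`) there is a
2-dimensional pseudo-character `t : G_ℚ → 𝒪'` with determinant the cyclotomic character,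
`t(Frob_ℓ) = χ(T_ℓ)` for `ℓ ∉ S`, trivial on inertia at `q ∤ N p`, and adically continuous. -/
theorem exists_pseudoChar (hcheb : Cheb.WeakChebotarev) (hpkg : ESPkgFaith N p)
    (hpS : p ∈ S) (hNS : ∀ q : ℕ, q.Prime → q ∣ N → q ∈ S)
    (I : Ideal 𝒪') [IsAdicComplete I 𝒪'] (hpI : (p : 𝒪') ∈ I)
    (χ : CuspForm.heckeAlgebra N 2 (↑S : Set ℕ) →+* 𝒪') :
    ∃ t : GQ → 𝒪', IsPseudoChar2 (cycloCharO p I hpI) t ∧
    (∀ (ℓ : ℕ) (hℓ : ℓ.Prime) (hℓN : ¬ ℓ ∣ N) (hℓS : ℓ ∉ (↑S : Set ℕ)),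
      ∀ A : ValuationSubring (AlgebraicClosure ℚ), A.LiesOverPrime ℓ →
        ∀ τ : GQ, A.IsFrobeniusAt τ ℓ → t τ = χ (CuspForm.heckeAlgebra.T hℓ hℓN hℓS)) ∧
    (∀ q : ℕ, q.Prime → ¬ q ∣ N * p → ∀ P : ValuationSubring (AlgebraicClosure ℚ),
      P.LiesOverPrime q → ∀ σ ∈ P.inertiaSubgroupIn ℚ, ∀ g : GQ, t (σ * g) = t g) ∧
    (∀ k : ℕ, ∃ E : IntermediateField ℚ (AlgebraicClosure ℚ), FiniteDimensional ℚ E ∧
      ∀ σ : GQ, (∀ a ∈ E, σ a = a) → ∀ g : GQ, t (σ * g) - t g ∈ I ^ k) := by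
  have hp : p.Prime := Fact.out
  obtain ⟨J, _, _, _, hJ, hfaith⟩ := hpkg
  have hgoodN : ∀ r : ℕ, r.Prime → r ∉ S → ¬ r ∣ N := fun r hr hrS h => hrS (hNS r hr h)
  have hgood : ∀ r : ℕ, r.Prime → r ∉ S → ¬ r ∣ N * p := by
    intro r hr hrS h
    rcases (Nat.Prime.dvd_mul hr).mp h with h | h
    · exact hrS (hNS r hr h)
    · have : r = p := (Nat.prime_dvd_prime_iff_eq hr hp).mp h
      exact hrS (this ▸ hpS)
  obtain ⟨t, ht⟩ := exists_traceFun (J := J) (χ := χ) I hpI hcheb hJ hfaith hgoodN hgood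
  exact ⟨t, pseudoChar_of_spec I hpI hcheb hJ hfaith hgoodN hgood t ht⟩

end main

end Fermat.Agent.S30
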