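/-
S30 glue (helper59): S30 from a pseudo-character.

`s30_of_pseudoChar`: if there is a function `t : G_ℚ → 𝒪'` which is a two-dimensional
pseudo-character with determinant `ε` (P1–P3), with `t(Frob_ℓ) = χ(T_ℓ)`, `ε(Frob_ℓ) = ℓ` (P4),
invariant under translation by inertia at `q ∤ Np` (P5), continuous (P6), and if `c² = 1`,
`ε(c) = -1`, then the conclusion of S30 holds for `χ`, with `𝒪'' = 𝒪'`.
(Wiles' lemma + stable lattice: `Fermat/Agent/ES/Wiles*.lean`.)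
-/
import Fermat.Statements.S30
import Fermat.Agent.S53.Defs
import Fermat.Agent.ES.WilesBridge

set_option autoImplicit false

open Polynomial

namespace Fermat.Agent.S30

open Fermat.Agent.S53 (Gal M2 MatCont ofMatrix)

/-- In a discrete valuation ring, division by a nonzero element loses only a bounded
power of the maximal ideal. -/
theorem exists_shift_of_ne_zero {A : Type*} [CommRing A] [IsDomain A]
    [IsDiscreteValuationRing A] (δ : A) (hδ : δ ≠ 0) :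
    ∃ v : ℕ, ∀ (n : ℕ) (x : A), δ * x ∈ IsLocalRing.maximalIdeal A ^ (n + v) →
      x ∈ IsLocalRing.maximalIdeal A ^ n := by
  obtain ⟨ϖ, hϖ⟩ := IsDiscreteValuationRing.exists_irreducible A
  obtain ⟨v, u, hu⟩ := IsDiscreteValuationRing.eq_unit_mul_pow_irreducible hδ hϖ
  refine ⟨v, fun n x hx => ?_⟩
  rw [hϖ.maximalIdeal_eq, Ideal.span_singleton_pow, Ideal.mem_span_singleton'] at hx ⊢
  obtain ⟨y, hy⟩ := hx
  refine ⟨↑u⁻¹ * y, ?_⟩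
  have hϖv : ϖ ^ v ≠ 0 := pow_ne_zero _ hϖ.ne_zero
  apply mul_left_cancel₀ hϖv
  apply mul_left_cancel₀ u.ne_zero
  calc (u : A) * (ϖ ^ v * (↑u⁻¹ * y * ϖ ^ n))
      = (↑u * ↑u⁻¹) * (y * ϖ ^ (n + v)) := by rw [pow_add]; ring
    _ = δ * x := by rw [Units.mul_inv, one_mul, hy]
    _ = (u : A) * (ϖ ^ v * x) := by rw [hu]; ring

/-- The conclusion of S30 for `χ`. -/
def S30Concl (p N : ℕ) [NeZero N] (S : Finset ℕ) (𝒪' : Type) [CommRing 𝒪']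
    (χ : CuspForm.heckeAlgebra N 2 (↑S : Set ℕ) →+* 𝒪') : Prop :=
  ∃ (𝒪'' : Type) (_ : CommRing 𝒪'') (_ : IsDomain 𝒪'') (_ : IsDiscreteValuationRing 𝒪'')
    (_ : IsAdicComplete (IsLocalRing.maximalIdeal 𝒪'') 𝒪'')
    (_ : Finite (IsLocalRing.ResidueField 𝒪'')) (_ : CharZero 𝒪'')
    (_ : Algebra 𝒪' 𝒪'') (_ : Module.Finite 𝒪' 𝒪'') (_ : IsLocalHom (algebraMap 𝒪' 𝒪'')),
  Function.Injective (algebraMap 𝒪' 𝒪'') ∧
  ∃ ρ : GaloisRepAdic 𝒪'',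
    (∀ (ℓ : ℕ) (hℓ : ℓ.Prime) (hℓN : ¬ ℓ ∣ N) (hℓS : ℓ ∉ (↑S : Set ℕ)),
      ∀ A : ValuationSubring (AlgebraicClosure ℚ), A.LiesOverPrime ℓ →
        ∀ σ : AlgebraicClosure ℚ ≃ₐ[ℚ] AlgebraicClosure ℚ, A.IsFrobeniusAt σ ℓ →
          LinearMap.charpoly (ρ.ρ σ) =
            X ^ 2 - C (algebraMap 𝒪' 𝒪'' (χ (CuspForm.heckeAlgebra.T hℓ hℓN hℓS))) * X
              + C ((ℓ : 𝒪''))) ∧
    (∀ q : ℕ, q.Prime → ¬ q ∣ N → q ≠ p → ρ.IsUnramifiedAt q)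

/-- **S30 from a pseudo-character** (with `𝒪'' = 𝒪'`). -/
theorem s30_of_pseudoChar (p N : ℕ) [NeZero N] (S : Finset ℕ)
    (𝒪' : Type) [CommRing 𝒪'] [IsDomain 𝒪'] [IsDiscreteValuationRing 𝒪']
    [IsAdicComplete (IsLocalRing.maximalIdeal 𝒪') 𝒪'] [Finite (IsLocalRing.ResidueField 𝒪')]
    [CharZero 𝒪']
    (χ : CuspForm.heckeAlgebra N 2 (↑S : Set ℕ) →+* 𝒪')
    (t : Gal → 𝒪') (ε : Gal →* 𝒪') (c : Gal)
    (h1 : t 1 = 2) (h2 : ∀ x y, t (x * y) = t (y * x))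
    (h3 : ∀ x y, t (x * y) + ε y * t (x * y⁻¹) = t x * t y)
    (hc : c * c = 1) (hεc : ε c = -1)
    (h4 : ∀ (ℓ : ℕ) (hℓ : ℓ.Prime) (hℓN : ¬ ℓ ∣ N) (hℓS : ℓ ∉ (↑S : Set ℕ)),
      ∀ A : ValuationSubring (AlgebraicClosure ℚ), A.LiesOverPrime ℓ →
        ∀ σ : Gal, A.IsFrobeniusAt σ ℓ →
          t σ = χ (CuspForm.heckeAlgebra.T hℓ hℓN hℓS) ∧ ε σ = (ℓ : 𝒪'))
    (h5 : ∀ q : ℕ, q.Prime → ¬ q ∣ N → q ≠ p →
      ∀ P : ValuationSubring (AlgebraicClosure ℚ), P.LiesOverPrime q →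
        ∀ σ ∈ P.inertiaSubgroupIn ℚ, ∀ g : Gal, t (σ * g) = t g)
    (h6 : ∀ k : ℕ, ∃ E : IntermediateField ℚ (AlgebraicClosure ℚ), FiniteDimensional ℚ E ∧
      ∀ σ : Gal, (∀ x ∈ E, σ x = x) →
        ∀ g : Gal, t (σ * g) - t g ∈ IsLocalRing.maximalIdeal 𝒪' ^ k) :
    S30Concl p N S 𝒪' χ := by
  obtain ⟨M, δ, hδ, htr, hdet, hcont⟩ :=
    Fermat.Agent.ES.Wiles.exists_integral_rep_of_pseudoChar ε t c h1 h2 h3 hc hεc
  obtain ⟨v, hv⟩ := exists_shift_of_ne_zero δ hδ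
  have hM : MatCont 𝒪' M := by
    intro n
    obtain ⟨E, hE, hEσ⟩ := h6 (n + v)
    exact ⟨E, hE, fun σ hσ i j => hv n _ (hcont σ _ (hEσ σ hσ) i j)⟩
  refine ⟨𝒪', inferInstance, inferInstance, inferInstance, inferInstance, inferInstance,
    inferInstance, Algebra.id 𝒪', inferInstance, ⟨fun _ h => h⟩, Function.injective_id,
    ofMatrix M hM, ?_, ?_⟩
  · intro ℓ hℓ hℓN hℓS A hA σ hσ
    obtain ⟨e1, e2⟩ := h4 ℓ hℓ hℓN hℓS A hA σ hσ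
    have hρ : (ofMatrix M hM).ρ σ = Matrix.toLin' (M σ) := rfl
    rw [hρ, Matrix.charpoly_toLin', Matrix.charpoly_fin_two, htr, hdet, e1, e2]
    rfl
  · intro q hq hqN hqp P hP σ hσ
    have h0 : ∀ i j, δ * (M σ - 1) i j ∈ (⊥ : Ideal 𝒪') :=
      hcont σ ⊥ fun g => by rw [h5 q hq hqN hqp P hP σ hσ g, sub_self]; exact Ideal.zero_mem _
    have hM1 : M σ = 1 := by
      rw [← sub_eq_zero]
      ext i j
      have := h0 i j
      rw [Ideal.mem_bot] at this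
      exact (mul_eq_zero.mp this).resolve_left hδ
    show (ofMatrix M hM).ρ σ = 1
    have hρ : (ofMatrix M hM).ρ σ = Matrix.toLin' (M σ) := rfl
    rw [hρ, hM1, Matrix.toLin'_one]
    rfl

end Fermat.Agent.S30
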