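import Fermat.Agent.S30.OfPseudoChar
import Fermat.Agent.S30.PseudoChar
import Fermat.Agent.Cheb.Final

/-!
# S30 from the faithful `p`-adic Eichler–Shimura package

`s30_of_pkg`: the statement of S30 (for given `p`, `N`), under the single hypothesis
`S31.ESPkgFaith N p`.  Weak Chebotarev is proved (`Cheb.weakChebotarev_holds`); the
pseudo-character is `exists_pseudoChar`; Wiles' lemma and the lattice are in
`s30_of_pseudoChar`.
-/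

set_option autoImplicit false

open Polynomial

namespace Fermat.Agent.S30

open Fermat.Agent.ES Fermat.Agent.S31

/-- **S30, reduced** to the faithful `p`-adic Eichler–Shimura package. -/
theorem s30_of_pkg (p : ℕ) [Fact p.Prime] (N : ℕ) [NeZero N] (hpkg : ESPkgFaith N p)
    (S : Finset ℕ) (hpS : p ∈ S) (hNS : ∀ q : ℕ, q.Prime → q ∣ N → q ∈ S)
    (𝒪' : Type) [CommRing 𝒪'] [IsDomain 𝒪'] [IsDiscreteValuationRing 𝒪']
    [IsAdicComplete (IsLocalRing.maximalIdeal 𝒪') 𝒪'] [Finite (IsLocalRing.ResidueField 𝒪')]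
    [CharZero 𝒪'] (hp𝒪' : (p : 𝒪') ∈ IsLocalRing.maximalIdeal 𝒪')
    (χ : CuspForm.heckeAlgebra N 2 (↑S : Set ℕ) →+* 𝒪') :
    S30Concl p N S 𝒪' χ := by
  obtain ⟨t, ⟨h1, h2, h3⟩, h4, h5, h6⟩ :=
    exists_pseudoChar (p := p) (N := N) (S := S) Cheb.weakChebotarev_holds hpkg hpS hNS
      (IsLocalRing.maximalIdeal 𝒪') hp𝒪' χ
  set ε : GQ →* 𝒪'ˣ := cycloCharO p (IsLocalRing.maximalIdeal 𝒪') hp𝒪' with hε
  have hne : ∀ ℓ : ℕ, ℓ ∉ (↑S : Set ℕ) → ℓ ≠ p := by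
    rintro ℓ hℓS rfl
    exact hℓS hpS
  refine s30_of_pseudoChar p N S 𝒪' χ t ((Units.coeHom 𝒪').comp ε) complexConjugation
    h1 h2 h3 complexConjugation_mul_self
    (cycloCharO_conj p (IsLocalRing.maximalIdeal 𝒪') hp𝒪') ?_ ?_ h6
  · intro ℓ hℓ hℓN hℓS A hA σ hσ
    exact ⟨h4 ℓ hℓ hℓN hℓS A hA σ hσ,
      cycloCharO_frob p (IsLocalRing.maximalIdeal 𝒪') hp𝒪' ℓ hℓ (hne ℓ hℓS) A hA σ hσ⟩
  · intro q hq hqN hqp P hP σ hσ g
    apply h5 q hq _ P hP σ hσ g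
    intro h
    rcases (Nat.Prime.dvd_mul hq).mp h with h | h
    · exact hqN h
    · exact hqp ((Nat.prime_dvd_prime_iff_eq hq Fact.out).mp h)

end Fermat.Agent.S30

namespace Fermat.Agent.S30

open CuspForm

/-- **S30 verbatim**, under the hypothesis that the faithful `p`-adic Eichler–Shimura package
exists at every level. -/
theorem s30_statement_of_pkg
    (hpkg : ∀ (N p : ℕ) [NeZero N], p.Prime → Fermat.Agent.S31.ESPkgFaith N p) :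
    ∀ (p : ℕ) [Fact p.Prime] (N : ℕ) [NeZero N] (S : Finset ℕ)
      (_hpS : p ∈ S) (_hNS : ∀ q : ℕ, q.Prime → q ∣ N → q ∈ S)
      (𝒪' : Type) [CommRing 𝒪'] [IsDomain 𝒪'] [IsDiscreteValuationRing 𝒪']
      [IsAdicComplete (IsLocalRing.maximalIdeal 𝒪') 𝒪'] [Finite (IsLocalRing.ResidueField 𝒪')]
      [CharZero 𝒪'] (_hp𝒪' : (p : 𝒪') ∈ IsLocalRing.maximalIdeal 𝒪')
      (χ : CuspForm.heckeAlgebra N 2 (↑S : Set ℕ) →+* 𝒪'),
      ∃ (𝒪'' : Type) (_ : CommRing 𝒪'') (_ : IsDomain 𝒪'') (_ : IsDiscreteValuationRing 𝒪'')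
        (_ : IsAdicComplete (IsLocalRing.maximalIdeal 𝒪'') 𝒪'')
        (_ : Finite (IsLocalRing.ResidueField 𝒪'')) (_ : CharZero 𝒪'')
        (_ : Algebra 𝒪' 𝒪'') (_ : Module.Finite 𝒪' 𝒪'') (_ : IsLocalHom (algebraMap 𝒪' 𝒪'')),
      Function.Injective (algebraMap 𝒪' 𝒪'') ∧
      ∃ ρ : GaloisRepAdic 𝒪'',
        (∀ (ℓ : ℕ) (hℓ : ℓ.Prime) (hℓN : ¬ ℓ ∣ N) (hℓS : ℓ ∉ (↑S : Set ℕ)),
          ∀ A : ValuationSubring (AlgebraicClosure ℚ), A.LiesOverPrime ℓ →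
            ∀ σ : AlgebraicClosure ℚ ≃ₐ[ℚ] AlgebraicClosure ℚ, A.IsFrobeniusAt σ ℓ →
              LinearMap.charpoly (ρ.ρ σ) =
                X ^ 2 - C (algebraMap 𝒪' 𝒪'' (χ (CuspForm.heckeAlgebra.T hℓ hℓN hℓS))) * X
                  + C ((ℓ : 𝒪''))) ∧
        (∀ q : ℕ, q.Prime → ¬ q ∣ N → q ≠ p → ρ.IsUnramifiedAt q) :=
  fun p _ N _ S hpS hNS 𝒪' _ _ _ _ _ _ hp𝒪' χ =>
    s30_of_pkg p N (hpkg N p Fact.out) S hpS hNS 𝒪' hp𝒪' χ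

end Fermat.Agent.S30
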